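import Mathlib
import Fermat.Agent.Gateway.BaseChange.CanonConcrete

/-!
# P-S27, block G3 (helper93): the semilinear action of `Aut(L/K)` on an abstract base change

For a base-change setup `S : Setup K L F0 F1` (`F1 = L·ι(F0)`, `L` and `F0` linearly disjoint over
`K`; `Gateway/BaseChange/TensorLift.lean`) we construct the action of `Aut(L/K)` on `F1` by
semilinear automorphisms fixing `ι F0`:

* `ringHom_ext` : ring homs out of `F1` are determined by their values on `L` and `ι F0`;
* `galHom S σ : F1 →+* F1`, `galEquiv S σ : F1 ≃+* F1`;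
* `gal S : (L ≃ₐ[K] L) →* SemilinearAut L F1`, `gal_smul_algebraMap`, `gal_smul_ι`.
-/

set_option autoImplicit false

noncomputable section

namespace Fermat.Agent.S27x.G3

open AlgebraicCurve Fermat.Agent.Gateway.BaseChange TensorProduct

variable {K L F0 F1 : Type*} [Field K] [Field L] [Field F0] [Field F1]
  [Algebra K L] [Algebra K F0] [Algebra L F1] (S : Setup K L F0 F1)

/-- Ring homs from `F1` to a division ring are determined by their values on `L` and `ι F0`. -/
theorem ringHom_ext {R : Type*} [DivisionRing R] {f g : F1 →+* R}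
    (hL : ∀ c : L, f (algebraMap L F1 c) = g (algebraMap L F1 c))
    (hF : ∀ x : F0, f (S.ι x) = g (S.ι x)) : f = g := by
  have h := S.gen (RingHom.eqLocusField f g) (fun c => hL c) (fun x => hF x)
  ext z
  have hz : z ∈ RingHom.eqLocusField f g := by rw [h]; trivial
  exact hz

theorem exists_galHom (σ : L ≃ₐ[K] L) :
    ∃ φ : F1 →+* F1, (∀ l : L, φ (algebraMap L F1 l) = algebraMap L F1 (σ l)) ∧
      ∀ f : F0, φ (S.ι f) = S.ι f := by
  refine S.exists_extension ((algebraMap L F1).comp (σ : L →+* L)) S.ι ?_ ?_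
  · intro c
    rw [RingHom.comp_apply, S.ι_const]
    congr 1
    exact σ.commutes c
  · intro n l f hl h
    have hl' : LinearIndependent K (fun i => σ (l i)) :=
      hl.map' σ.toLinearMap (LinearMap.ker_eq_bot.mpr σ.injective)
    exact S.linDisj n (fun i => σ (l i)) f hl' h

/-- The ring endomorphism of `F1` induced by `σ ∈ Aut(L/K)`. -/
def galHom (σ : L ≃ₐ[K] L) : F1 →+* F1 := (exists_galHom S σ).choose

@[simp]
theorem galHom_algebraMap (σ : L ≃ₐ[K] L) (l : L) :
    galHom S σ (algebraMap L F1 l) = algebraMap L F1 (σ l) :=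
  (exists_galHom S σ).choose_spec.1 l

@[simp]
theorem galHom_ι (σ : L ≃ₐ[K] L) (f : F0) : galHom S σ (S.ι f) = S.ι f :=
  (exists_galHom S σ).choose_spec.2 f

theorem galHom_one : galHom S (1 : L ≃ₐ[K] L) = RingHom.id F1 :=
  ringHom_ext S (fun c => by simp) (fun x => by simp)

theorem galHom_mul (σ τ : L ≃ₐ[K] L) :
    galHom S (σ * τ) = (galHom S σ).comp (galHom S τ) :=
  ringHom_ext S (fun c => by simp [AlgEquiv.mul_apply]) (fun x => by simp)

theorem galHom_galHom_inv (σ : L ≃ₐ[K] L) (z : F1) :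
    galHom S σ (galHom S σ⁻¹ z) = z := by
  have h := galHom_mul S σ σ⁻¹
  rw [mul_inv_cancel, galHom_one S] at h
  exact (congrArg (fun f : F1 →+* F1 => f z) h).symm

theorem galHom_inv_galHom (σ : L ≃ₐ[K] L) (z : F1) :
    galHom S σ⁻¹ (galHom S σ z) = z := by
  have h := galHom_mul S σ⁻¹ σ
  rw [inv_mul_cancel, galHom_one S] at h
  exact (congrArg (fun f : F1 →+* F1 => f z) h).symm

/-- The ring automorphism of `F1` induced by `σ ∈ Aut(L/K)`. -/
def galEquiv (σ : L ≃ₐ[K] L) : F1 ≃+* F1 where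
  toFun := galHom S σ
  invFun := galHom S σ⁻¹
  left_inv := galHom_inv_galHom S σ
  right_inv := galHom_galHom_inv S σ
  map_mul' := map_mul _
  map_add' := map_add _

@[simp]
theorem galEquiv_apply (σ : L ≃ₐ[K] L) (z : F1) : galEquiv S σ z = galHom S σ z := rfl

/-- The semilinear action of `Aut(L/K)` on `F1`. -/
def gal : (L ≃ₐ[K] L) →* SemilinearAut L F1 where
  toFun σ := ⟨(galEquiv S σ, σ.toRingEquiv), fun a => galHom_algebraMap S σ a⟩
  map_one' := by
    refine Subtype.ext (Prod.ext (RingEquiv.ext fun z => ?_) rfl)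
    show galHom S 1 z = z
    rw [galHom_one S]; rfl
  map_mul' σ τ := by
    refine Subtype.ext (Prod.ext (RingEquiv.ext fun z => ?_) rfl)
    show galHom S (σ * τ) z = galHom S σ (galHom S τ z)
    rw [galHom_mul S]; rfl

@[simp]
theorem toRingAut_gal (σ : L ≃ₐ[K] L) :
    SemilinearAut.toRingAut (gal S σ) = galEquiv S σ := rfl

@[simp]
theorem baseAut_gal (σ : L ≃ₐ[K] L) :
    SemilinearAut.baseAut (gal S σ) = σ.toRingEquiv := rfl

theorem gal_smul (σ : L ≃ₐ[K] L) (z : F1) : gal S σ • z = galHom S σ z := rfl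

theorem gal_smul_ι (σ : L ≃ₐ[K] L) (f : F0) : gal S σ • S.ι f = S.ι f :=
  galHom_ι S σ f

theorem gal_smul_algebraMap (σ : L ≃ₐ[K] L) (a : L) :
    gal S σ • algebraMap L F1 a = algebraMap L F1 (σ a) :=
  galHom_algebraMap S σ a

end Fermat.Agent.S27x.G3
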