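import Mathlib
import Fermat.Agent.S27x.G3.Galois
import Fermat.Agent.Gateway.FkBasics.Principal

/-!
# P-S27, block G3 (helper93): the big field of a base change is again a function field

For `S : Setup K L F0 F1` and `x : F0` transcendental over `K` with `F0 / K(x)` finite:

* `transcendental_ι` : `ι x` is transcendental over `L`;
* `ι_mem_adjoin`, `ιAdjoin : K(x) →+* L(ι x)`, `isIntegral_ι`;
* `finiteDimensional_ι` : `F1 / L(ι x)` is finite.

For `K ⊆ L` algebraically closed of characteristic zero this gives all the standing hypotheses of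
`Torsion.lean`: `residue_surjective_big`, `hasPrincipalDivisors_big`, `const_of_ord_eq_zero_big`,
`exists_nonconstant`.
-/

set_option autoImplicit false
set_option linter.unusedSectionVars false
set_option linter.style.haveILetI false

noncomputable section

namespace Fermat.Agent.S27x.G3

open AlgebraicCurve Fermat.Agent.Gateway.BaseChange TensorProduct Polynomial IntermediateField
open Fermat.Agent.S24

variable {K L F0 F1 : Type*} [Field K] [Field L] [Field F0] [Field F1]
  [Algebra K L] [Algebra K F0] [Algebra L F1] (S : Setup K L F0 F1)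

/-- A transcendental element of `F0 / K` stays transcendental in `F1 / L`. -/
theorem transcendental_ι {x : F0} (hx : Transcendental K x) : Transcendental L (S.ι x) := by
  rw [transcendental_iff_injective] at hx ⊢
  have h1 : Function.Injective
      (Algebra.TensorProduct.map (AlgHom.id K L) (aeval (R := K) x)) := by
    have := Module.Flat.lTensor_preserves_injective_linearMap (M := L)
      (aeval (R := K) x).toLinearMap hx
    exact this
  have h2 : (aeval (R := L) (S.ι x) : L[X] →+* F1)
      = S.mu.comp ((Algebra.TensorProduct.map (AlgHom.id K L) (aeval (R := K) x)).toRingHom.comp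
          (polyEquivTensor K L).toAlgHom.toRingHom) := by
    apply Polynomial.ringHom_ext
    · intro a
      simp [polyEquivTensor_apply]
    · simp [polyEquivTensor_apply]
  intro p q hpq
  have h3 := congrArg (fun f : L[X] →+* F1 => f p) h2
  have h4 := congrArg (fun f : L[X] →+* F1 => f q) h2
  simp only [RingHom.comp_apply] at h3 h4
  have h5 : S.mu ((Algebra.TensorProduct.map (AlgHom.id K L) (aeval (R := K) x)).toRingHom
      ((polyEquivTensor K L).toAlgHom.toRingHom p))
      = S.mu ((Algebra.TensorProduct.map (AlgHom.id K L) (aeval (R := K) x)).toRingHom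
      ((polyEquivTensor K L).toAlgHom.toRingHom q)) := by
    rw [← h3, ← h4]; exact hpq
  have h6 := h1 (S.mu_injective h5)
  exact (polyEquivTensor K L).injective h6

theorem ι_mem_adjoin {x : F0} {f : F0} (hf : f ∈ K⟮x⟯) : S.ι f ∈ L⟮S.ι x⟯ := by
  induction hf using IntermediateField.adjoin_induction with
  | mem y hy =>
    rw [Set.mem_singleton_iff] at hy
    subst hy
    exact mem_adjoin_simple_self L _
  | algebraMap c =>
    rw [S.ι_const]
    exact IntermediateField.algebraMap_mem _ _
  | add a b _ _ ha hb => rw [map_add]; exact add_mem ha hb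
  | inv a _ ha => rw [map_inv₀]; exact inv_mem ha
  | mul a b _ _ ha hb => rw [map_mul]; exact mul_mem ha hb

/-- `ι` restricted to `K(x) → L(ι x)`. -/
def ιAdjoin (x : F0) : K⟮x⟯ →+* L⟮S.ι x⟯ :=
  (S.ι.comp (algebraMap K⟮x⟯ F0)).codRestrict L⟮S.ι x⟯ (fun f => ι_mem_adjoin S f.2)

@[simp]
theorem coe_ιAdjoin (x : F0) (f : K⟮x⟯) : ((ιAdjoin S x f : L⟮S.ι x⟯) : F1) = S.ι (f : F0) := rfl

theorem isIntegral_ι (x : F0) [FiniteDimensional K⟮x⟯ F0] (f : F0) :
    IsIntegral L⟮S.ι x⟯ (S.ι f) := by
  have hf : IsIntegral K⟮x⟯ f := Algebra.IsIntegral.isIntegral f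
  exact hf.map_of_comp_eq (ιAdjoin S x) S.ι (by ext; rfl)

/-- `F1 / L(ι x)` is finite as soon as `F0 / K(x)` is. -/
theorem finiteDimensional_ι (x : F0) [FiniteDimensional K⟮x⟯ F0] :
    FiniteDimensional L⟮S.ι x⟯ F1 := by
  classical
  set b := Module.finBasis K⟮x⟯ F0 with hb
  set s : Set F1 := Set.range (fun i => S.ι (b i)) with hs
  have hsfin : Finite s := Set.finite_range _
  have hfd : FiniteDimensional L⟮S.ι x⟯ (adjoin L⟮S.ι x⟯ s) :=
    IntermediateField.finiteDimensional_adjoin (fun y _ => by
      obtain ⟨i, rfl⟩ := ‹y ∈ s›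
      exact isIntegral_ι S x (b i))
  have htop : (adjoin L⟮S.ι x⟯ s).toSubfield = ⊤ := by
    apply S.gen
    · intro c
      have hc : algebraMap L F1 c ∈ L⟮S.ι x⟯ := IntermediateField.algebraMap_mem _ c
      exact (adjoin L⟮S.ι x⟯ s).algebraMap_mem ⟨_, hc⟩
    · intro f
      have hf : f = ∑ i, ((b.repr f i : K⟮x⟯) : F0) * b i := by
        conv_lhs => rw [← b.sum_repr f]
        refine Finset.sum_congr rfl fun i _ => ?_
        rw [Algebra.smul_def]; rfl
      rw [hf, map_sum]
      refine Subfield.sum_mem _ fun i _ => ?_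
      rw [map_mul]
      refine Subfield.mul_mem _ ?_ ?_
      · have hc : S.ι ((b.repr f i : K⟮x⟯) : F0) ∈ L⟮S.ι x⟯ := ι_mem_adjoin S (b.repr f i).2
        exact (adjoin L⟮S.ι x⟯ s).algebraMap_mem ⟨_, hc⟩
      · exact subset_adjoin _ _ ⟨i, rfl⟩
  have htop' : adjoin L⟮S.ι x⟯ s = ⊤ := by
    apply IntermediateField.toSubfield_injective
    rw [htop]; rfl
  rw [htop'] at hfd
  exact Module.Finite.equiv (IntermediateField.topEquiv (F := L⟮S.ι x⟯) (E := F1)).toLinearEquiv

/-! ### standing hypotheses over algebraically closed fields of characteristic zero -/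

theorem charZero_big (K L : Type*) [Field K] [Field L] [Algebra K L] [CharZero K] : CharZero L :=
  charZero_of_injective_algebraMap (algebraMap K L).injective

section CZ

variable [IsAlgClosed K] [IsAlgClosed L] [CharZero K]
  {x : F0} (hx : Transcendental K x) [FiniteDimensional K⟮x⟯ F0]


include hx in
theorem exists_nonconstant : ∃ y : F0, y ∉ Set.range (algebraMap K F0) :=
  ⟨x, fun ⟨a, ha⟩ => hx (ha ▸ isAlgebraic_algebraMap a)⟩

include S hx in
theorem residue_surjective_big (w : Place L F1) :
    Function.Surjective (algebraMap L w.ResidueField) := by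
  haveI := charZero_big K L
  haveI := finiteDimensional_ι S x
  exact PD.residue_surjective (transcendental_ι S hx) w

include S hx in
theorem hasPrincipalDivisors_big : HasPrincipalDivisors L F1 := by
  haveI := charZero_big K L
  haveI := finiteDimensional_ι S x
  exact PD.hasPrincipalDivisors (transcendental_ι S hx)

include S hx in
theorem const_of_ord_eq_zero_big (z : F1) (_hz : z ≠ 0) (h : ∀ w : Place L F1, w.ord z = 0) :
    ∃ c : L, z = algebraMap L F1 c := by
  haveI := charZero_big K L
  haveI := finiteDimensional_ι S x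
  haveI : CharZero L⟮S.ι x⟯ :=
    charZero_of_injective_algebraMap (algebraMap L L⟮S.ι x⟯).injective
  obtain ⟨a, ha⟩ := Fermat.Agent.Gateway.FkBasics.exists_algebraMap_eq_of_forall_ord_eq_zero
    (transcendental_ι S hx) z h
  exact ⟨a, ha.symm⟩

end CZ

end Fermat.Agent.S27x.G3
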