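import Mathlib
import Fermat.Agent.S27x.G3.Galois

/-!
# P-S27, block G3 (helper93): Laurent expansion of an abstract base change at an extended place

For `S : Setup K L F0 F1`, a place `v` of `F0` with residue field `K` and a uniformiser `π`:

* `laurent S v hres π hπ : F1 →+* LaurentSeries L`, extending `l ↦ C l` and
  `ι f ↦ coeffMap (algebraMap K L) (placeLaurent v f)`;
* `laurent_gal` : it intertwines the action of `Aut(L/K)` on `F1` with `coeffMap σ`;
* `lc` : the leading coefficient, with `lc_ne_zero`, `lc_const_mul`, `lc_gal_smul`;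
* `exists_ι_eq_of_fixed` : **Galois descent**: an element of `F1` fixed by `Aut(L/K)` lies in
  `ι F0` (for `K ⊆ L` algebraically closed).
-/

set_option autoImplicit false

noncomputable section

namespace Fermat.Agent.S27x.G3

open AlgebraicCurve ModularCurve Fermat.Agent.Gateway.BaseChange TensorProduct

variable {K L F0 F1 : Type*} [Field K] [Field L] [Field F0] [Field F1]
  [Algebra K L] [Algebra K F0] [Algebra L F1] (S : Setup K L F0 F1)
  (v : Place K F0) (hres : Function.Surjective (algebraMap K v.ResidueField))
  (π : v.toValuationSubring) (hπ : Irreducible π)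

/-- The Laurent expansion of `F1` at the extension of the place `v`. -/
def laurent : F1 →+* LaurentSeries L := (S.exists_laurent_extension v hres π hπ).choose

theorem laurent_algebraMap (l : L) :
    laurent S v hres π hπ (algebraMap L F1 l) = HahnSeries.C l :=
  (S.exists_laurent_extension v hres π hπ).choose_spec.1 l

theorem laurent_ι (f : F0) :
    laurent S v hres π hπ (S.ι f) = iota K L (placeLaurent v hres π hπ f) :=
  (S.exists_laurent_extension v hres π hπ).choose_spec.2 f

theorem laurent_injective : Function.Injective (laurent S v hres π hπ) :=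
  (laurent S v hres π hπ).injective

theorem laurent_mu_tmul (l : L) (f : F0) :
    laurent S v hres π hπ (S.mu (l ⊗ₜ[K] f))
      = algebraMap L (LaurentSeries L) l * iota K L (placeLaurent v hres π hπ f) := by
  rw [S.mu_tmul, map_mul, laurent_algebraMap, laurent_ι, HahnSeries.C_apply,
    algebraMap_laurentSeries_eq_single]

/-- The Laurent expansion intertwines the Galois action with `coeffMap`. -/
theorem laurent_gal (σ : L ≃ₐ[K] L) (z : F1) :
    laurent S v hres π hπ (gal S σ • z) = coeffMap (σ : L →+* L) (laurent S v hres π hπ z) := by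
  have h : (laurent S v hres π hπ).comp (galHom S σ)
      = (coeffMap (σ : L →+* L)).comp (laurent S v hres π hπ) := by
    refine ringHom_ext S (fun c => ?_) (fun x => ?_)
    · rw [RingHom.comp_apply, RingHom.comp_apply, galHom_algebraMap, laurent_algebraMap,
        laurent_algebraMap, coeffMap_C']
      rfl
    · rw [RingHom.comp_apply, RingHom.comp_apply, galHom_ι, laurent_ι, coeffMap_iota]
  exact congrArg (fun f : F1 →+* LaurentSeries L => f z) h

/-! ### leading coefficient -/

/-- Leading coefficient of the Laurent expansion. -/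
def lc (z : F1) : L := (laurent S v hres π hπ z).leadingCoeff

theorem lc_ne_zero {z : F1} (hz : z ≠ 0) : lc S v hres π hπ z ≠ 0 := by
  rw [lc, HahnSeries.leadingCoeff_ne_zero, Ne, map_eq_zero]
  exact hz

theorem lc_const_mul (c : L) (z : F1) :
    lc S v hres π hπ (algebraMap L F1 c * z) = c * lc S v hres π hπ z := by
  rw [lc, lc, map_mul, laurent_algebraMap, HahnSeries.leadingCoeff_mul, HahnSeries.C_apply,
    HahnSeries.leadingCoeff_of_single]

theorem lc_gal_smul (σ : L ≃ₐ[K] L) (z : F1) :
    lc S v hres π hπ (gal S σ • z) = SemilinearAut.baseAut (gal S σ) (lc S v hres π hπ z) := by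
  rw [lc, laurent_gal, leadingCoeff_coeffMap]
  rfl

/-! ### descent -/

/-- `l ⊗ f ↦ r l • f` for a functional `r : L → K`. -/
def sliceT (r : L →ₗ[K] K) : L ⊗[K] F0 →ₗ[K] F0 :=
  (TensorProduct.lid K F0).toLinearMap ∘ₗ LinearMap.rTensor F0 r

@[simp]
theorem sliceT_tmul (r : L →ₗ[K] K) (l : L) (f : F0) :
    sliceT (F0 := F0) r (l ⊗ₜ[K] f) = r l • f := by
  simp [sliceT]

theorem slice_laurent_mu_mul (r : L →ₗ[K] K) (t : L ⊗[K] F0) (y : LaurentSeries K) :
    slice r (laurent S v hres π hπ (S.mu t) * iota K L y)
      = placeLaurent v hres π hπ (sliceT r t) * y := by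
  induction t using TensorProduct.induction_on with
  | zero => simp
  | tmul l f =>
    rw [laurent_mu_tmul, mul_assoc, ← map_mul, slice_const_mul_iota, sliceT_tmul,
      Algebra.smul_def, map_mul, placeLaurent_const, mul_assoc, HahnSeries.C_apply,
      algebraMap_laurentSeries_eq_single]
  | add a b ha hb =>
    rw [map_add, map_add, add_mul, map_add, ha, hb, map_add, map_add, add_mul]

theorem slice_laurent_mu (r : L →ₗ[K] K) (t : L ⊗[K] F0) :
    slice r (laurent S v hres π hπ (S.mu t)) = placeLaurent v hres π hπ (sliceT r t) := by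
  have h := slice_laurent_mu_mul S v hres π hπ r t 1
  rwa [map_one, mul_one, mul_one] at h

/-- An element of `F1` whose Laurent expansion has coefficients in `K` lies in `ι F0`. -/
theorem exists_ι_eq_of_laurent_eq_iota (z : F1) (y : LaurentSeries K)
    (hy : iota K L y = laurent S v hres π hπ z) : ∃ f : F0, S.ι f = z := by
  obtain ⟨a, b, hb, hz⟩ := S.exists_div z
  have hmul : laurent S v hres π hπ (S.mu b) * iota K L y = laurent S v hres π hπ (S.mu a) := by
    rw [hy, ← map_mul, hz, mul_div_cancel₀ _ hb]
  have hb' : laurent S v hres π hπ (S.mu b) ≠ 0 := by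
    rw [Ne, map_eq_zero]; exact hb
  obtain ⟨r, hr⟩ : ∃ r : L →ₗ[K] K, slice r (laurent S v hres π hπ (S.mu b)) ≠ 0 := by
    by_contra hcon
    simp only [not_exists, not_not] at hcon
    exact hb' (eq_zero_of_slice_eq_zero hcon)
  have h1 := congrArg (slice r) hmul
  rw [slice_laurent_mu_mul, slice_laurent_mu] at h1
  rw [slice_laurent_mu] at hr
  refine ⟨sliceT r a / sliceT r b, ?_⟩
  apply laurent_injective S v hres π hπ
  rw [laurent_ι, ← hy, map_div₀, ← h1, mul_div_cancel_left₀ _ hr]

include v hres π hπ in
/-- **Galois descent**: an element of `F1` fixed by `Aut(L/K)` comes from `F0`. -/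
theorem exists_ι_eq_of_fixed [IsAlgClosed K] [IsAlgClosed L] (z : F1)
    (hz : ∀ σ : L ≃ₐ[K] L, gal S σ • z = z) : ∃ f : F0, S.ι f = z := by
  obtain ⟨y, hy⟩ := mem_range_iota_of_fixed (isFixedBase_of_isAlgClosed (K := K) (L := L))
    (x := laurent S v hres π hπ z) fun σ => by
      rw [← laurent_gal, hz σ]
  exact exists_ι_eq_of_laurent_eq_iota S v hres π hπ z y hy

end Fermat.Agent.S27x.G3
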