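import Mathlib
import Fermat.Agent.S27x.G3.Laurent

/-!
# P-S27, block G3 (helper93): base change of torsion classes for an abstract `Setup`

`S : Setup K L F0 F1` with `K ⊆ L` algebraically closed of characteristic zero.  Hypotheses in
abstract form (discharged in `Main.lean` from `x : F0` transcendental with `F0 / K(x)` finite):
`hK`, `hL` (residue fields are the constants), `hconst` (functions on `F1` without zeros and poles
are constant), `hnc` (`F0 ≠ K`), `[HasPrincipalDivisors L F1]`.

* `exists_place` : `F0` has a place;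
* `bcPic0_injective` : `Pic⁰(F0) → Pic⁰(F1)` is injective;
* `mem_range_extPlace_of_finite_orbit`, `exists_rep_of_finite_orbit`;
* `setupTorsionEquiv`, `card_torsion_eq` : base change is an isomorphism on `n`-torsion as soon as the
  `n`-torsion of `F1` is finite.
-/

set_option autoImplicit false
set_option linter.unusedSectionVars false

noncomputable section

namespace Fermat.Agent.S27x.G3

open AlgebraicCurve ModularCurve Fermat.Agent.Gateway.BaseChange TensorProduct Fermat.Agent.S24

variable {K L F0 F1 : Type*} [Field K] [Field L] [Field F0] [Field F1]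
  [Algebra K L] [Algebra K F0] [Algebra L F1] (S : Setup K L F0 F1)
  (hK : ∀ v : Place K F0, Function.Surjective (algebraMap K v.ResidueField))

/-- `Aut(L/K)` fixes every extended place. -/
theorem gal_smul_extPlace (σ : L ≃ₐ[K] L) (v : Place K F0) :
    gal S σ • S.extPlace hK v = S.extPlace hK v :=
  S.smul_extPlace hK (gal S σ) (fun f => gal_smul_ι S σ f) v

/-- `Aut(L/K)` fixes every base-changed divisor. -/
theorem gal_smul_bc (σ : L ≃ₐ[K] L) (D : Divisor K F0) :
    gal S σ • S.bc hK D = S.bc hK D :=
  S.smul_bc hK (gal S σ) (fun f => gal_smul_ι S σ f) D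

include S hK in
/-- A non-constant function of `F0` has a zero or a pole; in particular `F0` has a place. -/
theorem exists_place
    (hconst : ∀ x : F1, x ≠ 0 → (∀ w : Place L F1, w.ord x = 0) →
      ∃ c : L, x = algebraMap L F1 c)
    (hnc : ∃ x : F0, x ∉ Set.range (algebraMap K F0)) : Nonempty (Place K F0) := by
  obtain ⟨x₀, hx₀⟩ := hnc
  have hι := S.ι_notMem_range hx₀
  have hι0 : S.ι x₀ ≠ 0 := by
    intro h0
    exact hι ⟨0, by rw [map_zero, h0]⟩
  by_contra hemp
  rw [not_nonempty_iff] at hemp
  have hall : ∀ w : Place L F1, w.ord (S.ι x₀) = 0 := by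
    intro w
    by_contra hw
    obtain ⟨v, -⟩ := (S.mem_range_extPlace_iff hK w).mpr ⟨x₀, hw⟩
    exact hemp.false v
  obtain ⟨c, hc⟩ := hconst _ hι0 hall
  exact hι ⟨c, hc.symm⟩

section Main

variable [IsAlgClosed K] [IsAlgClosed L]

/-- **G3 (T1)**: `Pic⁰(F0) → Pic⁰(F1)` is injective. -/
theorem bcPic0_injective
    (hconst : ∀ x : F1, x ≠ 0 → (∀ w : Place L F1, w.ord x = 0) →
      ∃ c : L, x = algebraMap L F1 c)
    (hnc : ∃ x : F0, x ∉ Set.range (algebraMap K F0)) :
    Function.Injective (S.bcPic0 hK) := by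
  obtain ⟨v⟩ := exists_place S hK hconst hnc
  obtain ⟨π, hπ⟩ := IsDiscreteValuationRing.exists_irreducible v.toValuationSubring
  rw [← Setup.extData_bcPic0]
  exact (S.extData hK).bcPic0_injective (gal S) (fun σ f => gal_smul_ι S σ f)
    (lc S v (hK v) π hπ) (fun x hx => lc_ne_zero S v (hK v) π hπ hx)
    (lc_const_mul S v (hK v) π hπ) (lc_gal_smul S v (hK v) π hπ) hconst
    (fun x hx => exists_ι_eq_of_fixed S v (hK v) π hπ x hx)

/-- A place of `F1` with finite `Aut(L/K)`-orbit is an extended place. -/
theorem mem_range_extPlace_of_finite_orbit [CharZero K]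
    (hL : ∀ w : Place L F1, Function.Surjective (algebraMap L w.ResidueField))
    (hnc : ∃ x : F0, x ∉ Set.range (algebraMap K F0))
    (w : Place L F1) (hw : (Set.range fun σ : L ≃ₐ[K] L => gal S σ • w).Finite) :
    w ∈ Set.range (S.extPlace hK) :=
  (S.extData hK).mem_range_ext_of_finite_orbit (gal S) (fun σ f => gal_smul_ι S σ f)
    (fun w u hu => place_exists_residue w (hL w) u hu)
    (fun a ha => infinite_orbit_of_transcendental a (transcendental_of_not_mem_range ha))
    hnc w hw

include hK in
/-- Every class of `Pic⁰(F1)` with finite `Aut(L/K)`-orbit is represented by a degree zero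
divisor all of whose places have a finite orbit. -/
theorem exists_rep_of_finite_orbit' [HasPrincipalDivisors L F1]
    (hL : ∀ w : Place L F1, Function.Surjective (algebraMap L w.ResidueField))
    (hconst : ∀ x : F1, x ≠ 0 → (∀ w : Place L F1, w.ord x = 0) →
      ∃ c : L, x = algebraMap L F1 c)
    (hnc : ∃ x : F0, x ∉ Set.range (algebraMap K F0))
    (x : Pic0 L F1) (hx : (Set.range fun σ : L ≃ₐ[K] L => gal S σ • x).Finite) :
    ∃ D : Divisor.degZero (K := L) (F := F1), Pic0.mk D = x ∧
      ∀ w ∈ (D : Divisor L F1).support,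
        (Set.range fun σ : L ≃ₐ[K] L => gal S σ • w).Finite := by
  obtain ⟨v⟩ := exists_place S hK hconst hnc
  obtain ⟨x₀, hx₀⟩ := hnc
  exact Fermat.Agent.Gateway.BaseChange.exists_rep_of_finite_orbit
    (B := poleDivisor (S.ι x₀)) (P := S.extPlace hK v) (gal S)
    (fun σ => smul_poleDivisor _ (gal_smul_ι S σ x₀))
    (fun σ => gal_smul_extPlace S hK σ v)
    (hL _)
    (hne_poleDivisor _ (S.ι_notMem_range hx₀) hL) x hx

/-- A class of `Pic⁰(F1)` with finite `Aut(L/K)`-orbit is a base change. -/
theorem exists_bcPic0_eq_of_finite_orbit [CharZero K] [HasPrincipalDivisors L F1]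
    (hL : ∀ w : Place L F1, Function.Surjective (algebraMap L w.ResidueField))
    (hconst : ∀ x : F1, x ≠ 0 → (∀ w : Place L F1, w.ord x = 0) →
      ∃ c : L, x = algebraMap L F1 c)
    (hnc : ∃ x : F0, x ∉ Set.range (algebraMap K F0))
    (x : Pic0 L F1) (hx : (Set.range fun σ : L ≃ₐ[K] L => gal S σ • x).Finite) :
    ∃ y : Pic0 K F0, S.bcPic0 hK y = x := by
  rw [← Setup.extData_bcPic0]
  exact (S.extData hK).exists_bcPic0_eq_of_finite_orbit (gal S)
    (fun w hw => mem_range_extPlace_of_finite_orbit S hK hL hnc w hw)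
    (exists_rep_of_finite_orbit' S hK hL hconst hnc) x hx

/-- **G3 (T2)**: base change is an isomorphism on `n`-torsion, provided the `n`-torsion of the
big field is finite. -/
def setupTorsionEquiv [CharZero K] [HasPrincipalDivisors L F1]
    (hL : ∀ w : Place L F1, Function.Surjective (algebraMap L w.ResidueField))
    (hconst : ∀ x : F1, x ≠ 0 → (∀ w : Place L F1, w.ord x = 0) →
      ∃ c : L, x = algebraMap L F1 c)
    (hnc : ∃ x : F0, x ∉ Set.range (algebraMap K F0))
    (n : ℕ) [Finite (Pic0.torsion L F1 n)] :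
    Pic0.torsion K F0 n ≃+ Pic0.torsion L F1 n :=
  (S.extData hK).bcTorsionEquiv (gal S)
    (by rw [Setup.extData_bcPic0]; exact bcPic0_injective S hK hconst hnc)
    (by
      intro x hx
      have := exists_bcPic0_eq_of_finite_orbit S hK hL hconst hnc x hx
      rwa [← Setup.extData_bcPic0] at this) n

theorem coe_setupTorsionEquiv [CharZero K] [HasPrincipalDivisors L F1]
    (hL : ∀ w : Place L F1, Function.Surjective (algebraMap L w.ResidueField))
    (hconst : ∀ x : F1, x ≠ 0 → (∀ w : Place L F1, w.ord x = 0) →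
      ∃ c : L, x = algebraMap L F1 c)
    (hnc : ∃ x : F0, x ∉ Set.range (algebraMap K F0))
    (n : ℕ) [Finite (Pic0.torsion L F1 n)] (y : Pic0.torsion K F0 n) :
    (setupTorsionEquiv S hK hL hconst hnc n y : Pic0 L F1) = S.bcPic0 hK (y : Pic0 K F0) := rfl

include S hK in
theorem card_torsion_eq_of_hyps [CharZero K] [HasPrincipalDivisors L F1]
    (hL : ∀ w : Place L F1, Function.Surjective (algebraMap L w.ResidueField))
    (hconst : ∀ x : F1, x ≠ 0 → (∀ w : Place L F1, w.ord x = 0) →
      ∃ c : L, x = algebraMap L F1 c)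
    (hnc : ∃ x : F0, x ∉ Set.range (algebraMap K F0))
    (n : ℕ) [Finite (Pic0.torsion L F1 n)] :
    Nat.card (Pic0.torsion K F0 n) = Nat.card (Pic0.torsion L F1 n) :=
  Nat.card_congr (setupTorsionEquiv S hK hL hconst hnc n).toEquiv

end Main

end Fermat.Agent.S27x.G3
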