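import Mathlib
import Fermat.Agent.S27x.G3.Torsion
import Fermat.Agent.S27x.G3.Basic

/-!
# P-S27, block G3 (helper93): constant field extension, torsion part

`K ⊆ L` algebraically closed fields of characteristic zero, `S : Setup K L F0 F1`
(`F1 = L·ι(F0)`, linearly disjoint), `x : F0` transcendental over `K` with `F0 / K(x)` finite.

* `bcPic0_injective_cz` (**T1**): `Pic⁰(F0) → Pic⁰(F1)` is injective.
* `torsionEquiv_cz`, `card_torsion_eq` (**T2**): if the `n`-torsion of `Pic⁰(F1)` is finite,
  base change is an isomorphism `Pic⁰(F0)[n] ≃+ Pic⁰(F1)[n]`.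
-/

set_option autoImplicit false
set_option linter.unusedSectionVars false
set_option linter.style.haveILetI false

noncomputable section

namespace Fermat.Agent.S27x.G3

open AlgebraicCurve Fermat.Agent.Gateway.BaseChange IntermediateField Fermat.Agent.S24

variable {K L F0 F1 : Type*} [Field K] [Field L] [Field F0] [Field F1]
  [Algebra K L] [Algebra K F0] [Algebra L F1] (S : Setup K L F0 F1)
  [IsAlgClosed K] [IsAlgClosed L] [CharZero K]
  {x : F0} (hx : Transcendental K x) [FiniteDimensional K⟮x⟯ F0]

/-- **G3 (T1)**: base change `Pic⁰(F0) → Pic⁰(F1)` is injective. -/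
theorem bcPic0_injective_cz :
    Function.Injective (S.bcPic0 (PD.residue_surjective hx)) :=
  bcPic0_injective S (PD.residue_surjective hx) (const_of_ord_eq_zero_big S hx)
    (exists_nonconstant hx)

/-- **G3 (T2)**: base change is an isomorphism on `n`-torsion if the `n`-torsion of the big
field is finite. -/
def torsionEquiv_cz (n : ℕ) [Finite (Pic0.torsion L F1 n)] :
    Pic0.torsion K F0 n ≃+ Pic0.torsion L F1 n :=
  haveI := hasPrincipalDivisors_big S hx
  setupTorsionEquiv S (PD.residue_surjective hx) (residue_surjective_big S hx)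
    (const_of_ord_eq_zero_big S hx) (exists_nonconstant hx) n

theorem coe_torsionEquiv_cz (n : ℕ) [Finite (Pic0.torsion L F1 n)]
    (y : Pic0.torsion K F0 n) :
    (torsionEquiv_cz S hx n y : Pic0 L F1)
      = S.bcPic0 (PD.residue_surjective hx) (y : Pic0 K F0) := rfl

include S hx in
/-- **G3 (T2)**: `#Pic⁰(F0)[n] = #Pic⁰(F1)[n]` if the right hand side is finite. -/
theorem card_torsion_eq (n : ℕ) [Finite (Pic0.torsion L F1 n)] :
    Nat.card (Pic0.torsion K F0 n) = Nat.card (Pic0.torsion L F1 n) :=
  Nat.card_congr (torsionEquiv_cz S hx n).toEquiv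

end Fermat.Agent.S27x.G3
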