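import Mathlib
import Fermat.Agent.S27x.G3.Main
import Fermat.Agent.Lib.RiemannRoch.GenusCompare
import Fermat.Agent.S24.DiffOrdAll

/-!
# P-S27, block G3 (helper93): the genus is invariant under constant field extension

`K ⊆ L` algebraically closed of characteristic zero, `S : Setup K L F0 F1`, `x : F0`
transcendental over `K` with `F0 / K(x)` finite.  Both genera are read off the degree of the
divisor of `dx` (`riemannRoch_dx_cz`), and `div (d ιx) = bc (div dx)`:

* at an extended place both orders are computed by the same `ord` (`ordDifferential_extPlace`);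
* the order of `d ιx` is constant on `Aut(L/K)`-orbits (`ordDifferential_gal_smul`), so a place
  where it is nonzero has a finite orbit (the divisor has finite support) and is therefore an
  extended place (`ordDifferential_eq_zero_of_notMem_range`).

Main result: `genusFF_eq : genusFF L F1 = genusFF K F0`.
-/

set_option autoImplicit false
set_option linter.unusedSectionVars false
set_option linter.style.haveILetI false

noncomputable section

namespace Fermat.Agent.S27x.G3

open AlgebraicCurve KaehlerDifferential IntermediateField
open Fermat.Agent.Gateway.BaseChange Fermat.Agent.S24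

section OrdDiff

variable {K F : Type*} [Field K] [Field F] [Algebra K F] [IsAlgClosed K] [CharZero K]
  {x : F} (hx : Transcendental K x) [FiniteDimensional K⟮x⟯ F]

include hx in
theorem ordDifferential_D_of_pole (v : Place K F) (y : F) (h : v.ord y < 0) :
    v.ordDifferential (D K F y) = v.ord y - 1 :=
  ffData_ord_diff x hx v y (ne_of_lt h)

include hx in
theorem ordDifferential_D_of_zero (v : Place K F) (y : F) (a : K)
    (h : 0 < v.ord (y - algebraMap K F a)) :
    v.ordDifferential (D K F y) = v.ord (y - algebraMap K F a) - 1 := by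
  have := ffData_ord_diff x hx v (y - algebraMap K F a) (ne_of_gt h)
  rwa [map_sub, Derivation.map_algebraMap, sub_zero] at this

include hx in
/-- Every place is a pole of `y` or a zero of some `y - a`. -/
theorem pole_or_zero (v : Place K F) (y : F) (hy : y ∉ Set.range (algebraMap K F)) :
    v.ord y < 0 ∨ ∃ a : K, 0 < v.ord (y - algebraMap K F a) := by
  by_cases h : v.ord y < 0
  · exact Or.inl h
  right
  push Not at h
  have hy0 : y ≠ 0 := fun h0 => hy ⟨0, by rw [map_zero, h0]⟩
  have hmem : y ∈ v.toValuationSubring := (place_mem_iff_ord_nonneg v hy0).mpr h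
  obtain ⟨a, ha | ha⟩ := PD.exists_const_sub_ord_pos hx v hmem
  · exact absurd ⟨a, ha.symm⟩ hy
  · exact ⟨a, ha⟩

end OrdDiff

variable {K L F0 F1 : Type*} [Field K] [Field L] [Field F0] [Field F1]
  [Algebra K L] [Algebra K F0] [Algebra L F1] (S : Setup K L F0 F1)
  [IsAlgClosed K] [IsAlgClosed L] [CharZero K]
  {x : F0} (hx : Transcendental K x) [FiniteDimensional K⟮x⟯ F0]

include hx in
theorem ι_notMem_range_big : S.ι x ∉ Set.range (algebraMap L F1) :=
  fun ⟨a, ha⟩ => transcendental_ι S hx (ha ▸ isAlgebraic_algebraMap a)

/-- At an extended place the order of `d ιx` is the order of `dx`. -/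
theorem ordDifferential_extPlace (v : Place K F0) :
    (S.extPlace (PD.residue_surjective hx) v).ordDifferential (D L F1 (S.ι x))
      = v.ordDifferential (D K F0 x) := by
  haveI := charZero_big K L
  haveI := finiteDimensional_ι S x
  have hx1 := transcendental_ι S hx
  have hxnc : x ∉ Set.range (algebraMap K F0) :=
    fun ⟨a, ha⟩ => hx (ha ▸ isAlgebraic_algebraMap a)
  rcases pole_or_zero hx v x hxnc with h | ⟨a, ha⟩
  · rw [ordDifferential_D_of_pole hx1 _ _ (by rw [S.extPlace_ord]; exact h),
      ordDifferential_D_of_pole hx v x h, S.extPlace_ord]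
  · have h1 : S.ι x - algebraMap L F1 (algebraMap K L a) = S.ι (x - algebraMap K F0 a) := by
      rw [map_sub, S.ι_const]
    rw [ordDifferential_D_of_zero hx v x a ha,
      ordDifferential_D_of_zero hx1 (S.extPlace (PD.residue_surjective hx) v) (S.ι x)
        (algebraMap K L a) (by rw [h1, S.extPlace_ord]; exact ha), h1, S.extPlace_ord]

include hx in
/-- The order of `d ιx` is constant on `Aut(L/K)`-orbits of places. -/
theorem ordDifferential_gal_smul (σ : L ≃ₐ[K] L) (w : Place L F1) :
    (gal S σ • w).ordDifferential (D L F1 (S.ι x)) = w.ordDifferential (D L F1 (S.ι x)) := by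
  haveI := charZero_big K L
  haveI := finiteDimensional_ι S x
  have hx1 := transcendental_ι S hx
  rcases pole_or_zero hx1 w (S.ι x) (ι_notMem_range_big S hx) with h | ⟨c, hc⟩
  · have h2 : (gal S σ • w).ord (S.ι x) = w.ord (S.ι x) := by
      have := SemilinearAut.ord_smul (gal S σ) w (S.ι x)
      rwa [gal_smul_ι] at this
    rw [ordDifferential_D_of_pole hx1 _ _ (by rw [h2]; exact h),
      ordDifferential_D_of_pole hx1 w _ h, h2]
  · have h2 : (gal S σ • w).ord (S.ι x - algebraMap L F1 (σ c))
        = w.ord (S.ι x - algebraMap L F1 c) := by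
      have := SemilinearAut.ord_smul (gal S σ) w (S.ι x - algebraMap L F1 c)
      rwa [smul_sub, gal_smul_ι, gal_smul_algebraMap] at this
    rw [ordDifferential_D_of_zero hx1 _ _ (σ c) (by rw [h2]; exact hc),
      ordDifferential_D_of_zero hx1 w _ c hc, h2]

/-- At a non-extended place the differential `d ιx` has neither zero nor pole. -/
theorem ordDifferential_eq_zero_of_notMem_range (W1 : Divisor L F1)
    (hW1 : ∀ w : Place L F1, W1 w = w.ordDifferential (D L F1 (S.ι x)))
    (w : Place L F1) (hw : w ∉ Set.range (S.extPlace (PD.residue_surjective hx))) :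
    W1 w = 0 := by
  by_contra hne
  apply hw
  apply mem_range_extPlace_of_finite_orbit S (PD.residue_surjective hx)
    (residue_surjective_big S hx) (exists_nonconstant hx) w
  refine W1.support.finite_toSet.subset ?_
  rintro _ ⟨σ, rfl⟩
  rw [Finset.mem_coe, Finsupp.mem_support_iff, hW1]
  show (gal S σ • w).ordDifferential (D L F1 (S.ι x)) ≠ 0
  rw [ordDifferential_gal_smul S hx, ← hW1]
  exact hne

include S hx in
/-- **G3 (T3)**: the genus is invariant under extension of the algebraically closed constant
field. -/
theorem genusFF_eq : genusFF L F1 = genusFF K F0 := by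
  haveI := charZero_big K L
  haveI := finiteDimensional_ι S x
  have hx1 := transcendental_ι S hx
  obtain ⟨W0, hW0, hdeg0, -⟩ := Fermat.Agent.Lib.RiemannRoch.GenusCompare.riemannRoch_dx_cz hx
  obtain ⟨W1, hW1, hdeg1, -⟩ := Fermat.Agent.Lib.RiemannRoch.GenusCompare.riemannRoch_dx_cz hx1
  have hbc : W1 = S.bc (PD.residue_surjective hx) W0 := by
    ext w
    by_cases hw : w ∈ Set.range (S.extPlace (PD.residue_surjective hx))
    · obtain ⟨v, rfl⟩ := hw
      rw [S.bc_apply_extPlace, hW1, hW0, ordDifferential_extPlace S hx]
    · rw [S.bc_apply_of_notMem_range _ W0 w hw,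
        ordDifferential_eq_zero_of_notMem_range S hx W1 hW1 w hw]
  have hdeg : Divisor.degree W1 = Divisor.degree W0 := by rw [hbc, S.degree_bc]
  rw [hdeg0, hdeg1] at hdeg
  have : (genusFF L F1 : ℤ) = genusFF K F0 := by linarith
  exact_mod_cast this

end Fermat.Agent.S27x.G3
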