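import Fermat.Agent.Gateway.BaseChange.ExtPlace
import Fermat.Agent.Lib.RiemannRoch.AlgClosedCharZero
import Fermat.Agent.S27x.Glue.SeparatingElement

/-!
# P-S27 block C (G3): automatic linear disjointness (helper79)

Let `K` be algebraically closed of characteristic zero, `F₀ / K` a function field of one variable
(`x : F₀` transcendental, `F₀ / K(x)` finite), `L / K` any field extension, `F₁` a field with an
`L`-algebra structure and `ι : F₀ →+* F₁` a ring homomorphism compatible with `K → L`.
If `ι x` is transcendental over `L`, then `L` and `ι F₀` are linearly disjoint over `K` inside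
`F₁` (`linDisj_of_transcendental`): the ring `L ⊗[K] F₀` is a domain (it embeds into `L((t))` by
Laurent expansion at a place of `F₀`), it is algebraic over `L[X]` (`X ↦ 1 ⊗ x`), and
`L[X] → F₁` is injective.

Consequently the hypotheses of `Contract.BlockBC` produce a `Gateway.BaseChange.Setup K L F₀ F₁`
with `ι = algebraMap F₀ F₁` (`setupOfAdjoin`).
-/

set_option autoImplicit false
set_option linter.style.haveILetI false
set_option linter.unusedSectionVars false

noncomputable section

namespace Fermat.Agent.S27x.G3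

open AlgebraicCurve IntermediateField TensorProduct Polynomial
open Fermat.Agent.Gateway.BaseChange

universe u u' v v'

section Tensor

variable {K : Type u} {L : Type u'} {F₀ : Type v} [Field K] [Field L] [Field F₀]
  [Algebra K L] [Algebra K F₀]

/-- `L ⊗[K] F₀` is a domain as soon as `F₀ / K` has a place with residue field `K`
(Laurent expansion `L ⊗[K] F₀ → L((t))`). -/
theorem isDomain_tensor_of_place (v : Place K F₀)
    (hres : Function.Surjective (algebraMap K v.ResidueField)) : IsDomain (L ⊗[K] F₀) := by
  obtain ⟨π, hπ⟩ := IsDiscreteValuationRing.exists_irreducible v.toValuationSubring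
  have hab : ∀ c : K, (HahnSeries.C : L →+* LaurentSeries L) (algebraMap K L c)
      = ((ModularCurve.coeffMap (algebraMap K L)).comp (placeLaurent v hres π hπ))
        (algebraMap K F₀ c) := by
    intro c
    rw [RingHom.comp_apply, placeLaurent_const, coeffMap_C']
  have hinj := tensorLift_injective (HahnSeries.C : L →+* LaurentSeries L) _ hab (by
    intro n l f hl h
    have h2 := Fermat.Agent.S24.Descent.eq_zero_of_sum_C_mul_coeffMap_eq_zero l hl
      (fun i => placeLaurent v hres π hπ (f i)) h
    intro i
    have := h2 i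
    rwa [map_eq_zero] at this)
  exact hinj.isDomain _

/-- In `L ⊗[K] F₀`, a relation `∑ lᵢ ⊗ fᵢ = 0` with `K`-linearly independent `lᵢ` is trivial. -/
theorem eq_zero_of_sum_tmul_eq_zero {n : ℕ} (l : Fin n → L) (f : Fin n → F₀)
    (hl : LinearIndependent K l) (h : ∑ i, l i ⊗ₜ[K] f i = 0) : ∀ i, f i = 0 := by
  classical
  obtain ⟨r, hr⟩ := LinearMap.exists_leftInverse_of_injective (Finsupp.linearCombination K l)
    (LinearMap.ker_eq_bot.mpr hl)
  intro j
  let φ : L →ₗ[K] K := (Finsupp.lapply j).comp r
  have hφ : ∀ i, φ (l i) = if i = j then 1 else 0 := by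
    intro i
    have h1 : r (l i) = Finsupp.single i 1 := by
      have := LinearMap.congr_fun hr (Finsupp.single i 1)
      simpa using this
    show (r (l i)) j = _
    rw [h1, Finsupp.single_apply]
  have h2 := congrArg (fun z => (TensorProduct.lid K F₀) (φ.rTensor F₀ z)) h
  simp only [map_sum, LinearMap.rTensor_tmul, TensorProduct.lid_tmul, map_zero, hφ] at h2
  simpa using h2

end Tensor

section LinDisj

variable {K : Type u} {L : Type u'} {F₀ : Type v} {F₁ : Type v'} [Field K] [Field L] [Field F₀]
  [Field F₁] [Algebra K L] [Algebra K F₀] [Algebra L F₁]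
  (ι : F₀ →+* F₁) (hι : ∀ a : K, ι (algebraMap K F₀ a) = algebraMap L F₁ (algebraMap K L a))

/-- Elements of `F₀` algebraic over `K(x)` are algebraic over `K[X]` (acting through `X ↦ x`). -/
theorem isAlgebraic_polynomial_of_isAlgebraic_adjoin {x f : F₀} (hf : IsAlgebraic K⟮x⟯ f) :
    letI : Algebra K[X] F₀ := (Polynomial.aeval x : K[X] →ₐ[K] F₀).toRingHom.toAlgebra
    IsAlgebraic K[X] f := by
  letI : Algebra K[X] F₀ := (Polynomial.aeval x : K[X] →ₐ[K] F₀).toRingHom.toAlgebra
  have h1 : IsAlgebraic (Algebra.adjoin K {x}) f := IntermediateField.isAlgebraic_adjoin_iff.mp hf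
  let φ : K[X] →+* Algebra.adjoin K {x} :=
    (Polynomial.aeval (⟨x, Algebra.self_mem_adjoin_singleton K x⟩ : Algebra.adjoin K {x}) :
      K[X] →ₐ[K] Algebra.adjoin K {x}).toRingHom
  have hφ : ∀ p : K[X], ((φ p : Algebra.adjoin K {x}) : F₀) = Polynomial.aeval x p := by
    intro p
    show ((Polynomial.aeval (⟨x, _⟩ : Algebra.adjoin K {x}) p : Algebra.adjoin K {x}) : F₀) = _
    rw [← Subalgebra.coe_val, ← Polynomial.aeval_algHom_apply]
    rfl
  have hsurj : Function.Surjective φ := by
    rintro ⟨y, hy⟩
    rw [Algebra.adjoin_singleton_eq_range_aeval] at hy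
    obtain ⟨p, rfl⟩ := hy
    exact ⟨p, Subtype.ext (hφ p)⟩
  refine IsAlgebraic.of_ringHom_of_comp_eq (f := φ) (g := RingHom.id F₀) (a := f) h1 hsurj
    Function.injective_id ?_
  ext p
  · simp only [RingHom.comp_apply]
    exact hφ _
  · simp only [RingHom.comp_apply]
    exact hφ _

/-- **Automatic linear disjointness**, tensor form: if `L ⊗[K] F₀` is a domain, `F₀` is algebraic
over `K(x)` and `ι x` is transcendental over `L`, then `L ⊗[K] F₀ → F₁` is injective. -/
theorem tensorLift_injective_of_transcendental [IsDomain (L ⊗[K] F₀)] {x : F₀}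
    [Algebra.IsAlgebraic K⟮x⟯ F₀] (hιx : Transcendental L (ι x)) :
    Function.Injective (tensorLift (algebraMap L F₁) ι (fun c => (hι c).symm)) := by
  classical
  set μ : L ⊗[K] F₀ →+* F₁ := tensorLift (algebraMap L F₁) ι (fun c => (hι c).symm) with hμ
  let g : L[X] →ₐ[L] L ⊗[K] F₀ := Polynomial.aeval ((1 : L) ⊗ₜ[K] x)
  letI algT : Algebra L[X] (L ⊗[K] F₀) := g.toRingHom.toAlgebra
  have halgT : ∀ p : L[X], algebraMap L[X] (L ⊗[K] F₀) p = g p := fun _ => rfl
  -- (1) `μ ∘ g = aeval (ι x)`
  have hμg : ∀ p : L[X], μ (g p) = Polynomial.aeval (ι x) p := by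
    intro p
    have h1 : μ.comp g.toRingHom = (Polynomial.aeval (ι x) : L[X] →ₐ[L] F₁).toRingHom := by
      apply Polynomial.ringHom_ext
      · intro a
        simp only [RingHom.comp_apply, AlgHom.toRingHom_eq_coe, RingHom.coe_coe, g,
          Polynomial.aeval_C, Algebra.TensorProduct.algebraMap_apply, Algebra.algebraMap_self,
          RingHom.id_apply, hμ, tensorLift_tmul, map_one, mul_one]
      · simp only [RingHom.comp_apply, AlgHom.toRingHom_eq_coe, RingHom.coe_coe, g,
          Polynomial.aeval_X, hμ, tensorLift_tmul, map_one, one_mul]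
    exact RingHom.congr_fun h1 p
  -- (2) `1 ⊗ f` is algebraic over `L[X]`
  have h1f : ∀ f : F₀, IsAlgebraic L[X] ((1 : L) ⊗ₜ[K] f : L ⊗[K] F₀) := by
    intro f
    letI : Algebra K[X] F₀ := (Polynomial.aeval x : K[X] →ₐ[K] F₀).toRingHom.toAlgebra
    have hf : IsAlgebraic K[X] f :=
      isAlgebraic_polynomial_of_isAlgebraic_adjoin (Algebra.IsAlgebraic.isAlgebraic f)
    have := IsAlgebraic.ringHom_of_comp_eq (f := Polynomial.mapRingHom (algebraMap K L))
      (g := (Algebra.TensorProduct.includeRight : F₀ →ₐ[K] L ⊗[K] F₀).toRingHom) hf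
      (Polynomial.map_injective _ (algebraMap K L).injective) (by
        apply Polynomial.ringHom_ext
        · intro a
          simp only [RingHom.comp_apply, Polynomial.coe_mapRingHom, Polynomial.map_C, halgT, g,
            Polynomial.aeval_C, Algebra.TensorProduct.algebraMap_apply, Algebra.algebraMap_self,
            RingHom.id_apply, AlgHom.toRingHom_eq_coe, RingHom.coe_coe,
            Algebra.TensorProduct.includeRight_apply]
          show _ = (1 : L) ⊗ₜ[K] (Polynomial.aeval x (Polynomial.C a))
          rw [Polynomial.aeval_C, Algebra.algebraMap_eq_smul_one, Algebra.algebraMap_eq_smul_one,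
            TensorProduct.smul_tmul]
        · simp only [RingHom.comp_apply, Polynomial.coe_mapRingHom, Polynomial.map_X, halgT, g,
            Polynomial.aeval_X, AlgHom.toRingHom_eq_coe, RingHom.coe_coe,
            Algebra.TensorProduct.includeRight_apply]
          show _ = (1 : L) ⊗ₜ[K] (Polynomial.aeval x Polynomial.X)
          rw [Polynomial.aeval_X])
    exact this
  -- (3) every element is algebraic over `L[X]`
  have hT : ∀ z : L ⊗[K] F₀, IsAlgebraic L[X] z := by
    intro z
    induction z using TensorProduct.induction_on with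
    | zero => exact isAlgebraic_zero
    | tmul l f =>
      have h2 : l ⊗ₜ[K] f = algebraMap L[X] (L ⊗[K] F₀) (Polynomial.C l) * ((1 : L) ⊗ₜ[K] f) := by
        rw [halgT]
        simp only [g, Polynomial.aeval_C, Algebra.TensorProduct.algebraMap_apply,
          Algebra.algebraMap_self, RingHom.id_apply, Algebra.TensorProduct.tmul_mul_tmul,
          mul_one, one_mul]
      rw [h2]
      exact (isAlgebraic_algebraMap _).mul (h1f f)
    | add a b ha hb => exact ha.add hb
  -- (4) conclusion
  rw [injective_iff_map_eq_zero]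
  intro z hz
  by_contra hz0
  refine Ideal.comap_ne_bot_of_algebraic_mem (I := RingHom.ker μ) hz0 (RingHom.mem_ker.mpr hz)
    (hT z) ?_
  rw [eq_bot_iff]
  intro p hp
  rw [Ideal.mem_comap, RingHom.mem_ker, halgT, hμg] at hp
  have := (transcendental_iff_injective.mp hιx) (a₁ := p) (a₂ := 0) (by rw [hp, map_zero])
  rw [this]
  exact Ideal.zero_mem _

include hι in
/-- **Automatic linear disjointness**, elementary form. -/
theorem linDisj_of_isDomain_of_transcendental [IsDomain (L ⊗[K] F₀)] {x : F₀}
    [Algebra.IsAlgebraic K⟮x⟯ F₀] (hιx : Transcendental L (ι x))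
    (n : ℕ) (l : Fin n → L) (f : Fin n → F₀) (hl : LinearIndependent K l)
    (h : ∑ i, algebraMap L F₁ (l i) * ι (f i) = 0) : ∀ i, f i = 0 := by
  apply eq_zero_of_sum_tmul_eq_zero l f hl
  apply tensorLift_injective_of_transcendental ι hι hιx
  rw [map_sum, map_zero]
  simpa only [tensorLift_tmul] using h

end LinDisj

section Curve

variable {K : Type u} {L : Type u'} {F₀ : Type v} {F₁ : Type v'} [Field K] [Field L] [Field F₀]
  [Field F₁] [Algebra K L] [Algebra K F₀] [Algebra L F₁] [IsAlgClosed K] [CharZero K]

/-- For a function field of one variable over an algebraically closed field of characteristic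
zero, `L ⊗[K] F₀` is a domain for every field extension `L / K`. -/
theorem isDomain_tensor {x : F₀} (hx : Transcendental K x) [FiniteDimensional K⟮x⟯ F₀] :
    IsDomain (L ⊗[K] F₀) := by
  obtain ⟨v⟩ := Fermat.Agent.Lib.RiemannRoch.nonempty_place_cz hx
  haveI : Module.Finite K v.ResidueField := Fermat.Agent.S24.PD.finite_residueField hx v
  haveI : Algebra.IsIntegral K v.ResidueField := Algebra.IsIntegral.of_finite K v.ResidueField
  exact isDomain_tensor_of_place v
    (IsAlgClosed.algebraMap_bijective_of_isIntegral (k := K) (K := v.ResidueField)).2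

/-- **Automatic linear disjointness** (curve form): `K` algebraically closed of characteristic
zero, `x : F₀` transcendental with `F₀ / K(x)` finite, `ι : F₀ →+* F₁` compatible with `K → L`
and `ι x` transcendental over `L`. Then `L` and `ι F₀` are linearly disjoint over `K`. -/
theorem linDisj_of_transcendental (ι : F₀ →+* F₁)
    (hι : ∀ a : K, ι (algebraMap K F₀ a) = algebraMap L F₁ (algebraMap K L a))
    {x : F₀} (hx : Transcendental K x) [FiniteDimensional K⟮x⟯ F₀]
    (hιx : Transcendental L (ι x))
    (n : ℕ) (l : Fin n → L) (f : Fin n → F₀) (hl : LinearIndependent K l)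
    (h : ∑ i, algebraMap L F₁ (l i) * ι (f i) = 0) : ∀ i, f i = 0 := by
  haveI : IsDomain (L ⊗[K] F₀) := isDomain_tensor hx
  haveI : Algebra.IsAlgebraic K⟮x⟯ F₀ := Algebra.IsAlgebraic.of_finite K⟮x⟯ F₀
  exact linDisj_of_isDomain_of_transcendental ι hι hιx n l f hl h

end Curve

section Trans

variable {K : Type u} {L : Type u'} {F₀ : Type v} {F₁ : Type v'} [Field K] [Field L] [Field F₀]
  [Field F₁] [Algebra K L] [Algebra K F₀] [Algebra L F₁]

/-- If `F₁ = L(ι F₀)` is not algebraic over `L` and `F₀` is algebraic over `K(x)`, then `ι x` is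
transcendental over `L`. -/
theorem transcendental_ι_of_gen (ι : F₀ →+* F₁)
    (hι : ∀ a : K, ι (algebraMap K F₀ a) = algebraMap L F₁ (algebraMap K L a))
    {x : F₀} [Algebra.IsAlgebraic K⟮x⟯ F₀]
    (hgen : IntermediateField.adjoin L (Set.range ι) = ⊤) {y : F₁} (hy : Transcendental L y) :
    Transcendental L (ι x) := by
  intro halg
  apply hy
  set A : IntermediateField L F₁ := algebraicClosure L F₁ with hA
  have hxA : ι x ∈ A := mem_algebraicClosure_iff.mpr halg
  have hadj : ∀ a ∈ Algebra.adjoin K {x}, ι a ∈ A := by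
    intro a ha
    induction ha using Algebra.adjoin_induction with
    | mem z hz =>
      rw [Set.mem_singleton_iff] at hz
      subst hz
      exact hxA
    | algebraMap r =>
      rw [hι]
      exact A.algebraMap_mem _
    | add a b _ _ ha hb =>
      rw [map_add]
      exact A.add_mem ha hb
    | mul a b _ _ ha hb =>
      rw [map_mul]
      exact A.mul_mem ha hb
  have hF : ∀ f : F₀, ι f ∈ A := by
    intro f
    have h1 : IsAlgebraic (Algebra.adjoin K {x}) f :=
      IntermediateField.isAlgebraic_adjoin_iff.mp (Algebra.IsAlgebraic.isAlgebraic f)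
    let φ : Algebra.adjoin K {x} →+* A :=
      { toFun := fun a => ⟨ι a, hadj a a.2⟩
        map_one' := Subtype.ext (map_one ι)
        map_mul' := fun a b => Subtype.ext (map_mul ι (a : F₀) (b : F₀))
        map_zero' := Subtype.ext (map_zero ι)
        map_add' := fun a b => Subtype.ext (map_add ι (a : F₀) (b : F₀)) }
    have hφ : Function.Injective φ := fun a b hab =>
      Subtype.ext (ι.injective (congrArg Subtype.val hab))
    have h2 : IsAlgebraic A (ι f) :=
      IsAlgebraic.ringHom_of_comp_eq (f := φ) (g := ι) h1 hφ rfl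
    haveI : Algebra.IsAlgebraic L A := algebraicClosure.isAlgebraic L F₁
    exact mem_algebraicClosure_iff.mpr (h2.restrictScalars L)
  have hle : (⊤ : IntermediateField L F₁) ≤ A := by
    rw [← hgen, IntermediateField.adjoin_le_iff]
    rintro _ ⟨f, rfl⟩
    exact hF f
  exact mem_algebraicClosure_iff.mp (hle (IntermediateField.mem_top (x := y)))

end Trans

section SetupOfAdjoin

variable {K : Type u} {L : Type u'} {F₀ : Type v} {F₁ : Type v'} [Field K] [Field L] [Field F₀]
  [Field F₁] [Algebra K L] [Algebra K F₀] [Algebra L F₁] [Algebra F₀ F₁] [Algebra K F₁]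
  [IsScalarTower K F₀ F₁] [IsScalarTower K L F₁]

theorem algebraMap_const (a : K) :
    algebraMap F₀ F₁ (algebraMap K F₀ a) = algebraMap L F₁ (algebraMap K L a : L) :=
  (IsScalarTower.algebraMap_apply K F₀ F₁ a).symm.trans (IsScalarTower.algebraMap_apply K L F₁ a)

/-- A subfield of `F₁` containing `L` and the image of `F₀` is everything. -/
theorem eq_top_of_gen (hgen : IntermediateField.adjoin L (Set.range (algebraMap F₀ F₁)) = ⊤)
    (S : Subfield F₁) (hL : ∀ c : L, algebraMap L F₁ c ∈ S)
    (hF : ∀ f : F₀, algebraMap F₀ F₁ f ∈ S) : S = ⊤ := by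
  rw [eq_top_iff]
  intro z _
  have hz : z ∈ (IntermediateField.adjoin L (Set.range (algebraMap F₀ F₁))).toSubfield := by
    rw [hgen]
    trivial
  rw [IntermediateField.adjoin_toSubfield] at hz
  refine (Subfield.closure_le (t := S)).mpr ?_ hz
  rintro _ (⟨c, rfl⟩ | ⟨f, rfl⟩)
  · exact hL c
  · exact hF f

variable [IsAlgClosed K] [CharZero K] [IsCurveOver K F₀] [Algebra.EssFiniteType K F₀]
  [IsCurveOver L F₁] [Algebra.EssFiniteType L F₁]

/-- A transcendental element of `F₀` stays transcendental over `L` in `F₁ = L · F₀`. -/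
theorem transcendental_algebraMap_of_gen
    (hgen : IntermediateField.adjoin L (Set.range (algebraMap F₀ F₁)) = ⊤)
    {x : F₀} [FiniteDimensional K⟮x⟯ F₀] : Transcendental L (algebraMap F₀ F₁ x) := by
  haveI : CharZero L := charZero_of_injective_algebraMap (algebraMap K L).injective
  obtain ⟨y, hy, -, -⟩ := Fermat.Agent.S27x.Glue.exists_transcendental_finiteDimensional
    (K := L) (F := F₁)
  haveI : Algebra.IsAlgebraic K⟮x⟯ F₀ := Algebra.IsAlgebraic.of_finite K⟮x⟯ F₀
  exact transcendental_ι_of_gen (K := K) (algebraMap F₀ F₁) algebraMap_const hgen hy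

/-- **The base-change setup of `Contract.BlockBC`**: `F₁ = L · F₀` with `F₀ / K` and `F₁ / L`
curves, `K` algebraically closed of characteristic zero. Linear disjointness is automatic. -/
def setupOfAdjoin (hgen : IntermediateField.adjoin L (Set.range (algebraMap F₀ F₁)) = ⊤) :
    Setup K L F₀ F₁ where
  ι := algebraMap F₀ F₁
  ι_const := algebraMap_const (K := K)
  linDisj := by
    obtain ⟨x, hx, hfin, -⟩ := Fermat.Agent.S27x.Glue.exists_transcendental_finiteDimensional
      (K := K) (F := F₀)
    exact linDisj_of_transcendental (algebraMap F₀ F₁) algebraMap_const hx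
      (transcendental_algebraMap_of_gen (K := K) hgen)
  gen := eq_top_of_gen hgen

@[simp]
theorem setupOfAdjoin_ι (hgen : IntermediateField.adjoin L (Set.range (algebraMap F₀ F₁)) = ⊤) :
    (setupOfAdjoin (K := K) hgen).ι = algebraMap F₀ F₁ := rfl

end SetupOfAdjoin

end Fermat.Agent.S27x.G3
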