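import Fermat.Agent.S27x.G3.SetupOfAdjoin
import Fermat.Agent.S27x.G3.Main
import Fermat.Agent.S27x.G3.Genus
import Fermat.Agent.S27x.Desc.T2

/-!
# P-S27 block C: assembly of G3 from the `Contract.BlockBC` hypotheses (helper79)

Inputs: `setupOfAdjoin` (automatic linear disjointness, `SetupOfAdjoin.lean`), helper93's
`genusFF_eq`, `bcPic0_injective_cz`, `card_torsion_eq` for an abstract `Setup`, helper17's
separating element.

* `g3_package` (4 independent universes): from the `BlockBC` hypotheses, the genus equality, a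
  `Setup` with `ι = algebraMap F₀ F₁`, injectivity of `bcPic0`, and the torsion count whenever
  the torsion of the big field is finite.
* `g3Core : Desc.G3Core` (the input of `Desc.t2_of_g3Core`), hence `t2 : Contract.T2`.
* `blockBC_fin`: `Contract.BlockBC` with finiteness of the torsion upstairs as an extra hypothesis
  (step (6) of the `T0` chain, `K = ℚ̄ ⊆ L = ℂ`).
-/

set_option autoImplicit false
set_option linter.style.haveILetI false
set_option linter.unusedSectionVars false

noncomputable section

namespace Fermat.Agent.S27x.G3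

open AlgebraicCurve IntermediateField
open Fermat.Agent.Gateway.BaseChange

universe u u' v v'

section Package

variable {K : Type u} {L : Type u'} {F₀ : Type v} {F₁ : Type v'} [Field K] [Field L] [Field F₀]
  [Field F₁] [Algebra K L] [Algebra K F₀] [Algebra L F₁] [Algebra F₀ F₁] [Algebra K F₁]
  [IsScalarTower K F₀ F₁] [IsScalarTower K L F₁]
  [IsAlgClosed K] [IsAlgClosed L] [CharZero K]
  [IsCurveOver K F₀] [Algebra.EssFiniteType K F₀]
  [IsCurveOver L F₁] [Algebra.EssFiniteType L F₁]

/-- **G3, all in one** (4 independent universes). -/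
theorem g3_package (hgen : IntermediateField.adjoin L (Set.range (algebraMap F₀ F₁)) = ⊤) :
    genusFF K F₀ = genusFF L F₁ ∧
      ∃ S : Setup K L F₀ F₁, (∀ f : F₀, S.ι f = algebraMap F₀ F₁ f) ∧
        (∀ hK : (∀ v : Place K F₀, Function.Surjective (algebraMap K v.ResidueField)),
          Function.Injective (S.bcPic0 hK)) ∧
        ∀ (n : ℕ) [Finite (Pic0.torsion L F₁ n)],
          Nat.card (Pic0.torsion K F₀ n) = Nat.card (Pic0.torsion L F₁ n) := by
  obtain ⟨x, hx, hfin, -⟩ := Fermat.Agent.S27x.Glue.exists_transcendental_finiteDimensional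
    (K := K) (F := F₀)
  refine ⟨(genusFF_eq (setupOfAdjoin (K := K) hgen) hx).symm, setupOfAdjoin (K := K) hgen,
    fun _ => rfl, fun _ => bcPic0_injective_cz (setupOfAdjoin (K := K) hgen) hx, fun n _ => ?_⟩
  exact card_torsion_eq (setupOfAdjoin (K := K) hgen) hx n

/-- `Contract.BlockBC` with finiteness of the torsion of the big field as an extra hypothesis
(4 independent universes). -/
theorem blockBC_fin (hgen : IntermediateField.adjoin L (Set.range (algebraMap F₀ F₁)) = ⊤)
    (hfin : ∀ n : ℕ, 0 < n → Finite (Pic0.torsion L F₁ n)) :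
    genusFF K F₀ = genusFF L F₁ ∧
      ∀ n : ℕ, 0 < n → Nat.card (Pic0.torsion K F₀ n) = Nat.card (Pic0.torsion L F₁ n) := by
  obtain ⟨hg, S, -, -, hcard⟩ := g3_package (K := K) hgen
  refine ⟨hg, fun n hn => ?_⟩
  haveI := hfin n hn
  exact hcard n

end Package

/-- The G3 input of `Desc.t2_of_g3Core`. -/
theorem g3Core : Fermat.Agent.S27x.Desc.G3Core.{u, v} := by
  intro K L F₀ F₁ _ _ _ _ _ _ _ _ _ _ _ _ _ _ _ _ _ _ hgen
  obtain ⟨hg, S, hS, hinj, -⟩ := g3_package (K := K) hgen
  exact ⟨hg, S, hS, hinj⟩

/-- `Contract.T2`: it suffices to prove the torsion count over constant fields algebraic over a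
finitely generated field. -/
theorem t2 : Fermat.Agent.S27x.Contract.T2.{u, v} :=
  Fermat.Agent.S27x.Desc.t2_of_g3Core g3Core

end Fermat.Agent.S27x.G3
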