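import Mathlib
import Fermat.Prelude.Def_AlgebraicCurve_DivisorClassGroup
import Fermat.Prelude.Def_AlgebraicCurve_Repartitions

/-!
# P-S27, block G3: transport of the function-field package along an isomorphism (helper79)

For a `K`-algebra isomorphism `e : F ≃ₐ[K] F'` of fields we transport places, orders, degrees,
divisors, principal divisors, `Pic⁰`, its torsion, Riemann-Roch spaces, `HasPrincipalDivisors`,
`FiniteResidue` and the genus `genusFF`.
-/

set_option autoImplicit false

noncomputable section

namespace Fermat.Agent.S27x.G3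

open AlgebraicCurve

variable {K F F' : Type*} [Field K] [Field F] [Field F'] [Algebra K F] [Algebra K F']

/-! ### places -/

/-- The ring isomorphism between the pulled back valuation ring and the original one. -/
def comapRingEquiv (e : F ≃ₐ[K] F') (A : ValuationSubring F') :
    (A.comap (e : F →+* F')) ≃+* A where
  toFun x := ⟨e x, x.2⟩
  invFun y := ⟨e.symm y, by
    show (e : F →+* F') (e.symm (y : F')) ∈ A
    simp⟩
  left_inv x := by ext; simp
  right_inv y := by ext; simp
  map_mul' x y := by ext; simp
  map_add' x y := by ext; simp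

@[simp]
theorem coe_comapRingEquiv_apply (e : F ≃ₐ[K] F') (A : ValuationSubring F')
    (x : A.comap (e : F →+* F')) : ((comapRingEquiv e A x : A) : F') = e (x : F) := rfl

/-- Pull back of a place along a `K`-algebra isomorphism. -/
def placeComap (e : F ≃ₐ[K] F') (w : Place K F') : Place K F where
  toValuationSubring := w.toValuationSubring.comap (e : F →+* F')
  algebraMap_mem' a := by
    show (e : F →+* F') (algebraMap K F a) ∈ w.toValuationSubring
    have : (e : F →+* F') (algebraMap K F a) = algebraMap K F' a := e.commutes a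
    rw [this]
    exact w.algebraMap_mem' a
  ne_top' h := w.ne_top' <| by
    refine SetLike.ext fun y => ⟨fun _ => ValuationSubring.mem_top y, fun _ => ?_⟩
    have h1 : e.symm y ∈ w.toValuationSubring.comap (e : F →+* F') := by
      rw [h]
      exact ValuationSubring.mem_top _
    have h2 : (e : F →+* F') (e.symm y) ∈ w.toValuationSubring := h1
    simpa using h2
  isPrincipalIdealRing' :=
    IsPrincipalIdealRing.of_surjective
      ((comapRingEquiv e w.toValuationSubring).symm : _ ≃+* _)
      (comapRingEquiv e w.toValuationSubring).symm.surjective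

@[simp]
theorem placeComap_toValuationSubring (e : F ≃ₐ[K] F') (w : Place K F') :
    (placeComap e w).toValuationSubring = w.toValuationSubring.comap (e : F →+* F') := rfl

theorem mem_placeComap (e : F ≃ₐ[K] F') (w : Place K F') (f : F) :
    f ∈ (placeComap e w).toValuationSubring ↔ e f ∈ w.toValuationSubring := Iff.rfl

/-- The order at the pulled back place. -/
theorem ord_placeComap (e : F ≃ₐ[K] F') (w : Place K F') (f : F) :
    (placeComap e w).ord f = w.ord (e f) := by
  rcases eq_or_ne f 0 with rfl | hf
  · simp
  set v := placeComap e w with hv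
  obtain ⟨π, hπ⟩ := IsDiscreteValuationRing.exists_irreducible v.toValuationSubring
  obtain ⟨u, hu⟩ := v.exists_unit_mul_zpow hf hπ
  set n := v.ord f with hn
  set E := comapRingEquiv e w.toValuationSubring with hE
  have hπ' : Irreducible (E π) := (MulEquiv.irreducible_iff E).mpr hπ
  have hu' : IsUnit (E (u : v.toValuationSubring)) := u.isUnit.map E
  have hcoeu : ((hu'.unit : w.toValuationSubring) : F') = e ((u : v.toValuationSubring) : F) := by
    rw [IsUnit.unit_spec]
    rfl
  have hcoeπ : ((E π : w.toValuationSubring) : F') = e (π : F) := rfl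
  have key : e f = ((hu'.unit : w.toValuationSubring) : F')
      * (((E π : w.toValuationSubring) : F') ^ n) := by
    rw [hcoeu, hcoeπ]
    conv_lhs => rw [hu]
    rw [map_mul, map_zpow₀]
  rw [key, w.ord_unit_smul_zpow hu'.unit hπ' n]

/-- The bijection between places induced by a `K`-algebra isomorphism. -/
def placeEquiv (e : F ≃ₐ[K] F') : Place K F ≃ Place K F' where
  toFun v := placeComap e.symm v
  invFun w := placeComap e w
  left_inv v := by
    apply Place.ext
    ext x
    simp only [placeComap_toValuationSubring, ValuationSubring.mem_comap]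
    show e.symm (e x) ∈ v.toValuationSubring ↔ _
    rw [e.symm_apply_apply]
  right_inv w := by
    apply Place.ext
    ext y
    simp only [placeComap_toValuationSubring, ValuationSubring.mem_comap]
    show e (e.symm y) ∈ w.toValuationSubring ↔ _
    rw [e.apply_symm_apply]

theorem placeEquiv_apply (e : F ≃ₐ[K] F') (v : Place K F) :
    placeEquiv e v = placeComap e.symm v := rfl

theorem placeEquiv_symm_apply (e : F ≃ₐ[K] F') (w : Place K F') :
    (placeEquiv e).symm w = placeComap e w := rfl

theorem ord_placeEquiv (e : F ≃ₐ[K] F') (v : Place K F) (f : F) :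
    (placeEquiv e v).ord (e f) = v.ord f := by
  rw [placeEquiv_apply, ord_placeComap, e.symm_apply_apply]

theorem ord_placeEquiv' (e : F ≃ₐ[K] F') (v : Place K F) (f' : F') :
    (placeEquiv e v).ord f' = v.ord (e.symm f') := by
  rw [placeEquiv_apply, ord_placeComap]

theorem ord_placeEquiv_symm (e : F ≃ₐ[K] F') (w : Place K F') (f : F) :
    ((placeEquiv e).symm w).ord f = w.ord (e f) := by
  rw [placeEquiv_symm_apply, ord_placeComap]

/-- The residue fields of corresponding places are isomorphic `K`-algebras. -/
def residueAlgEquiv (e : F ≃ₐ[K] F') (w : Place K F') :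
    (placeComap e w).ResidueField ≃ₐ[K] w.ResidueField :=
  AlgEquiv.ofRingEquiv (f := IsLocalRing.ResidueField.mapEquiv
      (comapRingEquiv e w.toValuationSubring)) <| fun a => by
    have h3 : (comapRingEquiv e w.toValuationSubring)
        (algebraMap K (placeComap e w).toValuationSubring a)
        = algebraMap K w.toValuationSubring a := by
      ext
      rw [coe_comapRingEquiv_apply, Place.coe_algebraMap, e.commutes]
      rfl
    show IsLocalRing.ResidueField.mapEquiv _ (IsLocalRing.residue _ _) = IsLocalRing.residue _ _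
    rw [IsLocalRing.ResidueField.mapEquiv_apply, IsLocalRing.ResidueField.map_residue]
    exact congrArg _ h3

theorem deg_placeComap (e : F ≃ₐ[K] F') (w : Place K F') : (placeComap e w).deg = w.deg :=
  (residueAlgEquiv e w).toLinearEquiv.finrank_eq

theorem deg_placeEquiv (e : F ≃ₐ[K] F') (v : Place K F) : (placeEquiv e v).deg = v.deg := by
  have h := deg_placeComap e (placeEquiv e v)
  rw [← placeEquiv_symm_apply, Equiv.symm_apply_apply] at h
  exact h.symm

theorem finite_residue_placeComap (e : F ≃ₐ[K] F') (w : Place K F')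
    [Module.Finite K w.ResidueField] : Module.Finite K (placeComap e w).ResidueField :=
  Module.Finite.equiv (residueAlgEquiv e w).symm.toLinearEquiv

theorem finite_residue_of_equiv (e : F ≃ₐ[K] F')
    (h : ∀ v : Place K F, Module.Finite K v.ResidueField) (w : Place K F') :
    Module.Finite K w.ResidueField := by
  have := h (placeComap e w)
  exact Module.Finite.equiv (residueAlgEquiv e w).toLinearEquiv

theorem residue_surjective_placeComap (e : F ≃ₐ[K] F') (w : Place K F')
    (h : Function.Surjective (algebraMap K w.ResidueField)) :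
    Function.Surjective (algebraMap K (placeComap e w).ResidueField) := by
  intro x
  obtain ⟨a, ha⟩ := h (residueAlgEquiv e w x)
  refine ⟨a, (residueAlgEquiv e w).injective ?_⟩
  rw [AlgEquiv.commutes, ha]

/-! ### divisors -/

/-- Transport of divisors. -/
def divisorEquiv (e : F ≃ₐ[K] F') : Divisor K F ≃+ Divisor K F' :=
  Finsupp.domCongr (placeEquiv e)

theorem divisorEquiv_apply (e : F ≃ₐ[K] F') (D : Divisor K F) (w : Place K F') :
    divisorEquiv e D w = D ((placeEquiv e).symm w) := by
  rw [divisorEquiv, Finsupp.domCongr_apply, Finsupp.equivMapDomain_apply]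

@[simp]
theorem divisorEquiv_apply_placeEquiv (e : F ≃ₐ[K] F') (D : Divisor K F) (v : Place K F) :
    divisorEquiv e D (placeEquiv e v) = D v := by
  rw [divisorEquiv_apply, Equiv.symm_apply_apply]

theorem divisorEquiv_symm_apply (e : F ≃ₐ[K] F') (D' : Divisor K F') (v : Place K F) :
    (divisorEquiv e).symm D' v = D' (placeEquiv e v) := by
  obtain ⟨D, rfl⟩ := (divisorEquiv e).surjective D'
  rw [AddEquiv.symm_apply_apply, divisorEquiv_apply_placeEquiv]

@[simp]
theorem divisorEquiv_single (e : F ≃ₐ[K] F') (v : Place K F) (n : ℤ) :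
    divisorEquiv e (Finsupp.single v n) = Finsupp.single (placeEquiv e v) n := by
  rw [divisorEquiv, Finsupp.domCongr_apply, Finsupp.equivMapDomain_single]

theorem degree_divisorEquiv (e : F ≃ₐ[K] F') (D : Divisor K F) :
    Divisor.degree (divisorEquiv e D) = Divisor.degree D := by
  induction D using Finsupp.induction with
  | zero => simp
  | single_add v n D _ _ ih =>
      rw [map_add, map_add, map_add, ih, divisorEquiv_single, Divisor.degree_single,
        Divisor.degree_single, deg_placeEquiv]

theorem divisorEquiv_nonneg_iff (e : F ≃ₐ[K] F') (D : Divisor K F) :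
    0 ≤ divisorEquiv e D ↔ 0 ≤ D := by
  constructor
  · intro h v
    have := h (placeEquiv e v)
    rwa [divisorEquiv_apply_placeEquiv] at this
  · intro h w
    rw [divisorEquiv_apply]
    exact h _

theorem isPrincipal_divisorEquiv (e : F ≃ₐ[K] F') {D : Divisor K F}
    (hD : D ∈ Divisor.principal (K := K) (F := F)) :
    divisorEquiv e D ∈ Divisor.principal (K := K) (F := F') := by
  obtain ⟨f, hf, hD⟩ := hD
  refine ⟨e f, by simpa using hf, fun w => ?_⟩
  rw [divisorEquiv_apply, hD, ord_placeEquiv_symm]

theorem isPrincipal_divisorEquiv_symm (e : F ≃ₐ[K] F') {D' : Divisor K F'}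
    (hD : D' ∈ Divisor.principal (K := K) (F := F')) :
    (divisorEquiv e).symm D' ∈ Divisor.principal (K := K) (F := F) := by
  obtain ⟨f', hf, hD⟩ := hD
  refine ⟨e.symm f', by simpa using hf, fun v => ?_⟩
  rw [divisorEquiv_symm_apply, hD, ord_placeEquiv']

theorem mem_principal_divisorEquiv_iff (e : F ≃ₐ[K] F') {D : Divisor K F} :
    divisorEquiv e D ∈ Divisor.principal (K := K) (F := F') ↔
      D ∈ Divisor.principal (K := K) (F := F) := by
  constructor
  · intro h
    have := isPrincipal_divisorEquiv_symm e h
    rwa [AddEquiv.symm_apply_apply] at this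
  · exact isPrincipal_divisorEquiv e

theorem mem_degZero_divisorEquiv_iff (e : F ≃ₐ[K] F') {D : Divisor K F} :
    divisorEquiv e D ∈ Divisor.degZero (K := K) (F := F') ↔
      D ∈ Divisor.degZero (K := K) (F := F) := by
  rw [Divisor.mem_degZero, Divisor.mem_degZero, degree_divisorEquiv]

/-- Transport of `HasPrincipalDivisors`. -/
theorem hasPrincipalDivisors_of_equiv (e : F ≃ₐ[K] F') [HasPrincipalDivisors K F] :
    HasPrincipalDivisors K F' where
  exists_divisor f' hf' := by
    obtain ⟨D, hD, hdeg⟩ := HasPrincipalDivisors.exists_divisor (K := K) (e.symm f')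
      (by simpa using hf')
    refine ⟨divisorEquiv e D, fun w => ?_, by rw [degree_divisorEquiv, hdeg]⟩
    rw [divisorEquiv_apply, hD, ord_placeEquiv_symm, e.apply_symm_apply]

/-! ### Riemann-Roch spaces -/

theorem mem_riemannRochSpace_divisorEquiv_iff (e : F ≃ₐ[K] F') (D : Divisor K F) (f : F) :
    e f ∈ riemannRochSpace (divisorEquiv e D) ↔ f ∈ riemannRochSpace D := by
  rw [mem_riemannRochSpace_iff, mem_riemannRochSpace_iff]
  constructor
  · intro h v
    have := h (placeEquiv e v)
    rwa [divisorEquiv_apply_placeEquiv, ord_placeEquiv, EmbeddingLike.map_eq_zero_iff] at this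
  · intro h w
    have := h ((placeEquiv e).symm w)
    rwa [← divisorEquiv_apply, ord_placeEquiv_symm, ← EmbeddingLike.map_eq_zero_iff (f := e)]
      at this

/-- The Riemann-Roch spaces of corresponding divisors are isomorphic. -/
def riemannRochEquiv (e : F ≃ₐ[K] F') (D : Divisor K F) :
    riemannRochSpace D ≃ₗ[K] riemannRochSpace (divisorEquiv e D) :=
  e.toLinearEquiv.submoduleMap (riemannRochSpace D) |>.trans <| LinearEquiv.ofEq _ _ <| by
    ext f'
    constructor
    · rintro ⟨f, hf, rfl⟩
      exact (mem_riemannRochSpace_divisorEquiv_iff e D f).mpr hf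
    · intro hf'
      refine ⟨e.symm f', ?_, by simp⟩
      have h := (mem_riemannRochSpace_divisorEquiv_iff e D (e.symm f')).mp
        (by rw [e.apply_symm_apply]; exact hf')
      exact h

theorem finrank_riemannRochSpace_divisorEquiv (e : F ≃ₐ[K] F') (D : Divisor K F) :
    Module.finrank K (riemannRochSpace (divisorEquiv e D)) =
      Module.finrank K (riemannRochSpace D) :=
  (riemannRochEquiv e D).finrank_eq.symm

/-! ### `Pic⁰` -/

/-- Transport of degree zero divisors. -/
def degZeroEquiv (e : F ≃ₐ[K] F') :
    Divisor.degZero (K := K) (F := F) ≃+ Divisor.degZero (K := K) (F := F') where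
  toFun D := ⟨divisorEquiv e D, (mem_degZero_divisorEquiv_iff e).mpr D.2⟩
  invFun D' := ⟨(divisorEquiv e).symm D', by
    rw [← mem_degZero_divisorEquiv_iff e, AddEquiv.apply_symm_apply]
    exact D'.2⟩
  left_inv D := by ext1; simp
  right_inv D' := by ext1; simp
  map_add' D E := by ext1; simp

@[simp]
theorem coe_degZeroEquiv (e : F ≃ₐ[K] F') (D : Divisor.degZero (K := K) (F := F)) :
    (degZeroEquiv e D : Divisor K F') = divisorEquiv e (D : Divisor K F) := rfl

/-- Transport of `Pic⁰`. -/
def pic0Equiv (e : F ≃ₐ[K] F') : Pic0 K F ≃+ Pic0 K F' :=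
  QuotientAddGroup.congr _ _ (degZeroEquiv e) <| by
    ext D'
    simp only [AddSubgroup.mem_map, AddSubgroup.mem_addSubgroupOf]
    constructor
    · rintro ⟨D, hD, rfl⟩
      exact isPrincipal_divisorEquiv e hD
    · intro hD'
      refine ⟨(degZeroEquiv e).symm D', ?_, by simp⟩
      have := isPrincipal_divisorEquiv_symm e hD'
      exact this

@[simp]
theorem pic0Equiv_mk (e : F ≃ₐ[K] F') (D : Divisor.degZero (K := K) (F := F)) :
    pic0Equiv e (Pic0.mk D) = Pic0.mk (degZeroEquiv e D) := rfl

theorem mem_torsion_pic0Equiv_iff (e : F ≃ₐ[K] F') (n : ℕ) (x : Pic0 K F) :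
    pic0Equiv e x ∈ Pic0.torsion K F' n ↔ x ∈ Pic0.torsion K F n := by
  rw [Pic0.mem_torsion, Pic0.mem_torsion, ← map_zsmul, EmbeddingLike.map_eq_zero_iff]

/-- Transport of the torsion of `Pic⁰`. -/
def torsionEquiv (e : F ≃ₐ[K] F') (n : ℕ) : Pic0.torsion K F n ≃ Pic0.torsion K F' n :=
  (pic0Equiv e).toEquiv.subtypeEquiv fun x => (mem_torsion_pic0Equiv_iff e n x).symm

theorem natCard_torsion_eq (e : F ≃ₐ[K] F') (n : ℕ) :
    Nat.card (Pic0.torsion K F n) = Nat.card (Pic0.torsion K F' n) :=
  Nat.card_congr (torsionEquiv e n)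

/-! ### repartitions and the genus -/

/-- Transport of functions on places. -/
def funEquiv (e : F ≃ₐ[K] F') : (Place K F → F) ≃+* (Place K F' → F') where
  toFun α w := e (α ((placeEquiv e).symm w))
  invFun β v := e.symm (β (placeEquiv e v))
  left_inv α := by funext v; simp
  right_inv β := by funext w; simp
  map_mul' α β := by funext w; simp
  map_add' α β := by funext w; simp

@[simp]
theorem funEquiv_apply (e : F ≃ₐ[K] F') (α : Place K F → F) (w : Place K F') :
    funEquiv e α w = e (α ((placeEquiv e).symm w)) := rfl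

theorem funEquiv_apply_placeEquiv (e : F ≃ₐ[K] F') (α : Place K F → F) (v : Place K F) :
    funEquiv e α (placeEquiv e v) = e (α v) := by
  rw [funEquiv_apply, Equiv.symm_apply_apply]

theorem funEquiv_symm_eq (e : F ≃ₐ[K] F') (β : Place K F' → F') :
    (funEquiv e).symm β = funEquiv e.symm β := rfl

theorem funEquiv_smul (e : F ≃ₐ[K] F') (c : K) (α : Place K F → F) :
    funEquiv e (c • α) = c • funEquiv e α := by
  funext w
  simp [map_smul]

theorem funEquiv_mem_repartitions (e : F ≃ₐ[K] F') {α : Place K F → F}
    (hα : α ∈ repartitions K F) : funEquiv e α ∈ repartitions K F' := by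
  unfold repartitions at hα
  induction hα using Algebra.adjoin_induction with
  | mem α hα =>
    apply mem_repartitions_of_finite_ord
    have hα' : {v : Place K F | v.ord (α v) < 0}.Finite := by
      have hα2 : {v : Place K F | ¬v.adicValuation (α v) ≤ 1}.Finite := hα
      rwa [show {v : Place K F | ¬v.adicValuation (α v) ≤ 1}
        = {v : Place K F | v.ord (α v) < 0} from
        Set.ext fun v => v.not_adicValuation_le_one_iff] at hα2
    refine (hα'.image (placeEquiv e)).subset ?_
    intro w hw
    refine ⟨(placeEquiv e).symm w, ?_, Equiv.apply_symm_apply _ _⟩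
    have hw' : w.ord (e (α ((placeEquiv e).symm w))) < 0 := hw
    rwa [← ord_placeEquiv_symm] at hw'
  | algebraMap r =>
    have : funEquiv e (algebraMap F (Place K F → F) r)
        = algebraMap F' (Place K F' → F') (e r) := by
      funext w
      simp [Pi.algebraMap_apply]
    rw [this]
    exact Subalgebra.algebraMap_mem _ _
  | add α β _ _ hα hβ =>
    rw [map_add]
    exact add_mem hα hβ
  | mul α β _ _ hα hβ =>
    rw [map_mul]
    exact mul_mem hα hβ

/-- Transport of repartitions. -/
def repartitionsEquiv (e : F ≃ₐ[K] F') : ↥(repartitions K F) ≃ₗ[K] ↥(repartitions K F') where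
  toFun α := ⟨funEquiv e α, funEquiv_mem_repartitions e α.2⟩
  invFun β := ⟨(funEquiv e).symm β, by
    rw [funEquiv_symm_eq]
    exact funEquiv_mem_repartitions e.symm β.2⟩
  left_inv α := by ext1; simp
  right_inv β := by ext1; simp
  map_add' α β := by ext1; simp
  map_smul' c α := by
    ext1
    exact funEquiv_smul e c α

@[simp]
theorem coe_repartitionsEquiv (e : F ≃ₐ[K] F') (α : ↥(repartitions K F)) :
    ((repartitionsEquiv e α : ↥(repartitions K F')) : Place K F' → F')
      = funEquiv e (α : Place K F → F) := rfl

theorem repartitionsEquiv_mem_repartitionsOf_iff (e : F ≃ₐ[K] F') (D : Divisor K F)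
    (α : ↥(repartitions K F)) :
    repartitionsEquiv e α ∈ repartitionsOf (divisorEquiv e D) ↔ α ∈ repartitionsOf D := by
  rw [mem_repartitionsOf_iff, mem_repartitionsOf_iff]
  constructor
  · intro h v
    have := h (placeEquiv e v)
    rwa [coe_repartitionsEquiv, funEquiv_apply_placeEquiv, divisorEquiv_apply_placeEquiv,
      ord_placeEquiv, EmbeddingLike.map_eq_zero_iff] at this
  · intro h w
    have := h ((placeEquiv e).symm w)
    rw [coe_repartitionsEquiv, funEquiv_apply, divisorEquiv_apply, ← ord_placeEquiv_symm,
      EmbeddingLike.map_eq_zero_iff]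
    exact this

theorem repartitionsEquiv_mem_principal_iff (e : F ≃ₐ[K] F') (α : ↥(repartitions K F)) :
    repartitionsEquiv e α ∈ principalRepartitions K F' ↔ α ∈ principalRepartitions K F := by
  rw [mem_principalRepartitions_iff, mem_principalRepartitions_iff]
  constructor
  · rintro ⟨f', hf'⟩
    refine ⟨e.symm f', funext fun v => ?_⟩
    have := congrFun hf' (placeEquiv e v)
    rw [coe_repartitionsEquiv, funEquiv_apply_placeEquiv] at this
    rw [← this, e.symm_apply_apply]
  · rintro ⟨f, hf⟩
    refine ⟨e f, funext fun w => ?_⟩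
    rw [coe_repartitionsEquiv, funEquiv_apply, hf]

theorem map_repartitionsOf (e : F ≃ₐ[K] F') (D : Divisor K F) :
    (repartitionsOf D).map (repartitionsEquiv e : ↥(repartitions K F) →ₗ[K] ↥(repartitions K F'))
      = repartitionsOf (divisorEquiv e D) := by
  ext β
  constructor
  · rintro ⟨α, hα, rfl⟩
    exact (repartitionsEquiv_mem_repartitionsOf_iff e D α).mpr hα
  · intro hβ
    refine ⟨(repartitionsEquiv e).symm β, ?_, by simp⟩
    rw [SetLike.mem_coe, ← repartitionsEquiv_mem_repartitionsOf_iff e D,
      LinearEquiv.apply_symm_apply]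
    exact hβ

theorem map_principalRepartitions (e : F ≃ₐ[K] F') :
    (principalRepartitions K F).map
        (repartitionsEquiv e : ↥(repartitions K F) →ₗ[K] ↥(repartitions K F'))
      = principalRepartitions K F' := by
  ext β
  constructor
  · rintro ⟨α, hα, rfl⟩
    exact (repartitionsEquiv_mem_principal_iff e α).mpr hα
  · intro hβ
    refine ⟨(repartitionsEquiv e).symm β, ?_, by simp⟩
    rw [SetLike.mem_coe, ← repartitionsEquiv_mem_principal_iff e, LinearEquiv.apply_symm_apply]
    exact hβ

/-- Transport of `H¹(D)`. -/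
def h1Equiv (e : F ≃ₐ[K] F') (D : Divisor K F) : H1 D ≃ₗ[K] H1 (divisorEquiv e D) :=
  Submodule.Quotient.equiv _ _ (repartitionsEquiv e) <| by
    rw [Submodule.map_sup, map_repartitionsOf, map_principalRepartitions]

theorem finrank_h1_divisorEquiv (e : F ≃ₐ[K] F') (D : Divisor K F) :
    Module.finrank K (H1 (divisorEquiv e D)) = Module.finrank K (H1 D) :=
  (h1Equiv e D).finrank_eq.symm

/-- The genus is invariant under isomorphisms. -/
theorem genusFF_eq_of_equiv (e : F ≃ₐ[K] F') : genusFF K F = genusFF K F' := by
  unfold genusFF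
  have h := (h1Equiv e (0 : Divisor K F)).finrank_eq
  rwa [map_zero] at h

/-! ### transcendental generators -/

open IntermediateField in
theorem transcendental_map (e : F ≃ₐ[K] F') {x : F} (hx : Transcendental K x) :
    Transcendental K (e x) := by
  intro h
  apply hx
  have h2 : IsAlgebraic K (e.symm (e x)) := IsAlgebraic.algHom e.symm.toAlgHom h
  simpa using h2

open IntermediateField in
theorem finiteDimensional_adjoin_map (e : F ≃ₐ[K] F') (x : F) [FiniteDimensional K⟮x⟯ F] :
    FiniteDimensional K⟮e x⟯ F' := by
  have hmap : K⟮x⟯.map e.toAlgHom = K⟮e x⟯ := by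
    rw [IntermediateField.adjoin_map, Set.image_singleton]
    rfl
  let e₁ : K⟮x⟯ ≃+* K⟮e x⟯ :=
    ((K⟮x⟯.equivMap e.toAlgHom).trans (IntermediateField.equivOfEq hmap)).toRingEquiv
  refine Module.Finite.of_equiv_equiv e₁ e.toRingEquiv ?_
  ext y
  rfl

theorem notMem_range_algebraMap_map (e : F ≃ₐ[K] F') {x : F}
    (hx : x ∉ Set.range (algebraMap K F)) : e x ∉ Set.range (algebraMap K F') := by
  rintro ⟨c, hc⟩
  apply hx
  refine ⟨c, e.injective ?_⟩
  rw [e.commutes, hc]

end Fermat.Agent.S27x.G3
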